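import Fermat.Agent.Belyi.Polynomial
import Fermat.Agent.Abc.Wieferich

/-!
# The theorem of Elkies and Langevin

Under the abc bound a separable binary form takes values with large radical at coprime integers.
The proof feeds a Belyi polynomial for the form into abc; conversely the form `x y (x + y)` gives
the abc bound back.
-/

set_option autoImplicit false

noncomputable section

open Polynomial

open UniqueFactorizationMonoid (radical)

namespace FA.Belyi

/-- The value at `(m, n)` of the homogenisation of degree `N` of `f`. -/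
def hom (f : ℤ[X]) (N : ℕ) (m n : ℤ) : ℤ :=
  ∑ i ∈ Finset.range (N + 1), f.coeff i * m ^ i * n ^ (N - i)

theorem hom_cast (f : ℤ[X]) {N : ℕ} (hN : f.natDegree ≤ N) (m : ℤ) {n : ℤ} (hn : n ≠ 0) :
    (hom f N m n : ℚ) = (n : ℚ) ^ N * aeval ((m : ℚ) / n) f := by
  rw [aeval_eq_sum_range' (Nat.lt_succ_of_le hN), hom, Int.cast_sum, Finset.mul_sum]
  refine Finset.sum_congr rfl fun i hi => ?_
  have hiN : i ≤ N := Nat.lt_succ_iff.1 (Finset.mem_range.1 hi)
  have hn' : (n : ℚ) ≠ 0 := Int.cast_ne_zero.2 hn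
  rw [zsmul_eq_mul, div_pow, show (n : ℚ) ^ N = (n : ℚ) ^ (N - i) * (n : ℚ) ^ i by
    rw [← pow_add, Nat.sub_add_cancel hiN]]
  push_cast
  field_simp

theorem hom_add (f g : ℤ[X]) (N : ℕ) (m n : ℤ) :
    hom (f + g) N m n = hom f N m n + hom g N m n := by
  simp only [hom, coeff_add, add_mul, Finset.sum_add_distrib]

theorem hom_C (a : ℤ) (N : ℕ) (m n : ℤ) : hom (C a) N m n = a * n ^ N := by
  rw [hom, Finset.sum_eq_single 0 (fun i _ hi => by rw [coeff_C, if_neg hi, zero_mul, zero_mul])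
    (by simp)]
  simp

/-- The sum of the absolute values of the coefficients. -/
def weight (f : ℤ[X]) (N : ℕ) : ℕ := ∑ i ∈ Finset.range (N + 1), (f.coeff i).natAbs

theorem hom_natAbs_le (f : ℤ[X]) (N : ℕ) (m n : ℤ) :
    (hom f N m n).natAbs ≤ weight f N * max m.natAbs n.natAbs ^ N := by
  rw [hom, weight, Finset.sum_mul]
  refine (Int.natAbs_sum_le _ _).trans (Finset.sum_le_sum fun i hi => ?_)
  have hiN : i ≤ N := Nat.lt_succ_iff.1 (Finset.mem_range.1 hi)
  rw [Int.natAbs_mul, Int.natAbs_mul, Int.natAbs_pow, Int.natAbs_pow, mul_assoc]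
  refine Nat.mul_le_mul le_rfl ((Nat.mul_le_mul (Nat.pow_le_pow_left (le_max_left _ n.natAbs) i)
    (Nat.pow_le_pow_left (le_max_right m.natAbs _) (N - i))).trans_eq ?_)
  rw [← pow_add, Nat.add_sub_cancel' hiN]

theorem hom_succ (f : ℤ[X]) (N : ℕ) (m n : ℤ) :
    hom f (N + 1) m n = f.coeff (N + 1) * m ^ (N + 1) + n * hom f N m n := by
  rw [hom, Finset.sum_range_succ, Nat.sub_self, pow_zero, mul_one, add_comm, hom, Finset.mul_sum]
  refine congrArg₂ (· + ·) rfl (Finset.sum_congr rfl fun i hi => ?_)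
  have hiN : i ≤ N := Nat.lt_succ_iff.1 (Finset.mem_range.1 hi)
  rw [Nat.succ_sub hiN, pow_succ]
  ring

/-- The common divisors of `hom A` and `a n ^ D` at coprime arguments divide `a (lead A) ^ D`. -/
theorem dvd_of_dvd_hom {A : ℤ[X]} {D : ℕ} (hD : 0 < D) {a g m n : ℤ} (hmn : IsCoprime m n)
    (h1 : g ∣ hom A D m n) (h2 : g ∣ a * n ^ D) : g ∣ a * A.coeff D ^ D := by
  obtain ⟨M, rfl⟩ : ∃ M, D = M + 1 := ⟨D - 1, by omega⟩
  obtain ⟨u, v, huv⟩ := hmn.pow_left (m := M + 1)
  set c := A.coeff (M + 1)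
  set w := c * v - u * hom A M m n
  have e : c = u * hom A (M + 1) m n + n * w := by
    rw [hom_succ]
    linear_combination -c * huv
  have h3 : g ∣ c ^ (M + 1) - (n * w) ^ (M + 1) :=
    (h1.trans ⟨u, by rw [e]; ring⟩ : g ∣ c - n * w).trans (sub_dvd_pow_sub_pow _ _ _)
  have h4 : g ∣ a * (n * w) ^ (M + 1) := by
    rw [mul_pow, ← mul_assoc]
    exact h2.mul_right _
  have h5 := (h3.mul_left a).add h4
  rwa [mul_sub, sub_add_cancel] at h5

/-- The height of a polynomial value: `max |hom A| |n| ^ D` has the size of `max |m| |n| ^ D`. -/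
theorem height_le {A : ℤ[X]} {D : ℕ} (hD : 0 < D) (hc : A.coeff D ≠ 0) (m n : ℤ) :
    max m.natAbs n.natAbs ^ D ≤
      (2 * (weight A D + 1)) ^ D * max (hom A D m n).natAbs (n.natAbs ^ D) := by
  set S := weight A D + 1 with hS
  rcases le_or_gt m.natAbs (2 * S * n.natAbs) with h | h
  · calc max m.natAbs n.natAbs ^ D ≤ (2 * S * n.natAbs) ^ D := Nat.pow_le_pow_left
          (max_le h (Nat.le_mul_of_pos_left _ (by positivity))) _
      _ = (2 * S) ^ D * n.natAbs ^ D := mul_pow _ _ _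
      _ ≤ _ := Nat.mul_le_mul le_rfl (le_max_right _ _)
  · obtain ⟨M, rfl⟩ : ∃ M, D = M + 1 := ⟨D - 1, by omega⟩
    have hn : n.natAbs ≤ m.natAbs := by
      have := Nat.le_mul_of_pos_left n.natAbs (show 0 < 2 * S by positivity)
      omega
    rw [max_eq_left hn]
    have h1 := hom_succ A M m n
    have h2 : (hom A M m n).natAbs ≤ S * m.natAbs ^ M := by
      refine (hom_natAbs_le A M m n).trans ?_
      rw [max_eq_left hn]
      refine Nat.mul_le_mul ((Finset.sum_le_sum_of_subset ?_).trans (Nat.le_succ _)) le_rfl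
      exact Finset.range_mono (Nat.le_succ _)
    have h3 : (A.coeff (M + 1) * m ^ (M + 1)).natAbs ≤
        (hom A (M + 1) m n).natAbs + (n * hom A M m n).natAbs := by omega
    rw [Int.natAbs_mul, Int.natAbs_pow, Int.natAbs_mul] at h3
    have h4 := Nat.le_mul_of_pos_left (m.natAbs ^ (M + 1)) (Int.natAbs_pos.2 hc)
    have h5 : 2 * (n.natAbs * (hom A M m n).natAbs) ≤ m.natAbs ^ (M + 1) := by
      calc 2 * (n.natAbs * (hom A M m n).natAbs) ≤ 2 * (n.natAbs * (S * m.natAbs ^ M)) :=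
            Nat.mul_le_mul le_rfl (Nat.mul_le_mul le_rfl h2)
        _ = 2 * S * n.natAbs * m.natAbs ^ M := by ring
        _ ≤ m.natAbs * m.natAbs ^ M := Nat.mul_le_mul h.le le_rfl
        _ = m.natAbs ^ (M + 1) := by ring
    calc m.natAbs ^ (M + 1) ≤ 2 * (hom A (M + 1) m n).natAbs := by omega
      _ ≤ (2 * S) ^ (M + 1) * (hom A (M + 1) m n).natAbs :=
          Nat.mul_le_mul ((le_self_pow₀ (by omega) (by omega)).trans'
            (Nat.le_mul_of_pos_right 2 (by omega))) le_rfl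
      _ ≤ _ := Nat.mul_le_mul le_rfl (le_max_left _ _)

theorem exists_int_multiple (p : ℚ[X]) :
    ∃ (a : ℤ) (A : ℤ[X]), a ≠ 0 ∧ A.map (Int.castRingHom ℚ) = C (a : ℚ) * p := by
  induction p using Polynomial.induction_on' with
  | add p q hp hq =>
    obtain ⟨a, A, ha, hA⟩ := hp
    obtain ⟨b, B, hb, hB⟩ := hq
    refine ⟨a * b, C b * A + C a * B, mul_ne_zero ha hb, ?_⟩
    rw [Polynomial.map_add, Polynomial.map_mul, Polynomial.map_mul, map_C, map_C, hA, hB]
    simp only [eq_intCast, Int.cast_mul, C_mul]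
    ring
  | monomial k c =>
    refine ⟨c.den, monomial k c.num, by simp, ?_⟩
    rw [map_monomial, C_mul_monomial, eq_intCast, Int.cast_natCast, mul_comm, Rat.mul_den_eq_num]

/-- The integral data of a Belyi polynomial for a separable `f`: `A + B = a`, and `A B` divides,
up to a constant, a power of `f h`, where `h` has degree `deg A + 1 - deg f`. -/
theorem belyi_data {f : ℤ[X]} (hsep : (f.map (Int.castRingHom ℚ)).Separable) :
    ∃ (D : ℕ) (a : ℤ) (A h q : ℤ[X]) (c : ℤ) (k : ℕ), 0 < D ∧ a ≠ 0 ∧ c ≠ 0 ∧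
      A.natDegree = D ∧ A.coeff D ≠ 0 ∧ h.natDegree + f.natDegree = D + 1 ∧
      C c * (f * h) ^ k = A * (C a - A) * q ∧
      ∀ x : ℚ, aeval x h = 0 → aeval x (A * (C a - A)) = 0 := by
  have hinj : Function.Injective (Int.castRingHom ℚ) := Int.cast_injective
  set fq := f.map (Int.castRingHom ℚ) with hfq
  have hfq0 : fq ≠ 0 := hsep.ne_zero
  obtain ⟨P, hP, hPf, hPc⟩ := belyi hfq0
  have hcard := card_roots_eq hP hPc
  set Rq := P * (P - 1) with hRq
  have hP0 : P ≠ 0 := fun h => by rw [h, natDegree_zero] at hP; omega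
  have hP1 : P - 1 ≠ 0 := fun h => by
    rw [sub_eq_zero] at h
    rw [h, natDegree_one] at hP
    omega
  have hRq0 : Rq ≠ 0 := mul_ne_zero hP0 hP1
  set s := radical Rq with hs
  have hs0 : s ≠ 0 := UniqueFactorizationMonoid.radical_ne_zero
  have hssep : s.Separable :=
    PerfectField.separable_iff_squarefree.2 UniqueFactorizationMonoid.squarefree_radical
  obtain ⟨k, q₁, hq₁⟩ := UniqueFactorizationMonoid.exists_dvd_radical_self_pow hRq0
  rw [← hs] at hq₁
  have hroots : ∀ z : ℂ, aeval z s = 0 ↔ aeval z Rq = 0 := fun z => by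
    constructor
    · intro hz
      obtain ⟨t, ht⟩ := UniqueFactorizationMonoid.radical_dvd_self (a := Rq)
      rw [ht, map_mul, ← hs, hz, zero_mul]
    · intro hz
      have e := congrArg (aeval z) hq₁
      rw [map_pow, map_mul, hz, zero_mul] at e
      exact pow_eq_zero_iff'.1 e |>.1
  have hsdeg : s.natDegree = P.natDegree + 1 := by
    rw [← hcard, ← card_rootSet_eq_natDegree (K := ℂ) hssep (IsAlgClosed.splits _),
      ← Nat.card_eq_fintype_card, ← Nat.card_eq_finsetCard]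
    refine Nat.card_congr (Equiv.setCongr (Set.ext fun z => ?_))
    rw [mem_rootSet, Finset.mem_coe, Multiset.mem_toFinset, mem_aroots]
    exact ⟨fun h => ⟨hRq0, (hroots z).1 h.2⟩, fun h => ⟨hs0, (hroots z).2 h.2⟩⟩
  obtain ⟨h₁, hh₁⟩ : fq ∣ s := by
    refine (map_dvd_map' (algebraMap ℚ ℂ)).1 ((IsAlgClosed.splits _).dvd_of_roots_le_roots
      (map_ne_zero hfq0) ((Multiset.le_iff_subset (nodup_roots hsep.map)).2 fun z hz => ?_))
    rw [mem_roots (map_ne_zero hfq0), IsRoot.def, eval_map_algebraMap] at hz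
    rw [mem_roots (map_ne_zero hs0), IsRoot.def, eval_map_algebraMap, hroots]
    rw [hRq, map_mul, map_sub, map_one, mul_eq_zero, sub_eq_zero]
    exact hPf z hz
  obtain ⟨a, A, ha, hA⟩ := exists_int_multiple P
  obtain ⟨e, h, he, hh⟩ := exists_int_multiple h₁
  obtain ⟨c, q, hc, hq⟩ := exists_int_multiple
    (C (((e : ℚ)) ^ k * (-((a : ℚ) ^ 2))⁻¹) * q₁)
  have hAd : A.natDegree = P.natDegree := by
    rw [← natDegree_map_eq_of_injective hinj A, hA,
      natDegree_C_mul (Int.cast_ne_zero.2 ha)]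
  have hA0 : A ≠ 0 := fun h0 => by rw [h0, natDegree_zero] at hAd; omega
  have hh₁0 : h₁ ≠ 0 := fun h0 => hs0 (by rw [hh₁, h0, mul_zero])
  refine ⟨P.natDegree, a, A, h, q, c, k, hP, ha, hc, hAd, ?_, ?_, ?_, fun x hx => ?_⟩
  · rw [← hAd]; exact leadingCoeff_ne_zero.2 hA0
  · have e1 := natDegree_mul hfq0 hh₁0
    rw [← hh₁, hsdeg, hfq, natDegree_map_eq_of_injective hinj] at e1
    rw [← natDegree_map_eq_of_injective hinj h, hh, natDegree_C_mul (Int.cast_ne_zero.2 he)]
    omega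
  · apply map_injective _ hinj
    simp only [Polynomial.map_mul, Polynomial.map_pow, Polynomial.map_sub, map_C, hA, hh, hq,
      ← hfq, Int.coe_castRingHom]
    have e2 : C (-((a : ℚ) ^ 2)) * C (-((a : ℚ) ^ 2))⁻¹ = 1 := by
      rw [← C_mul, mul_inv_cancel₀ (by simp [ha]), C_1]
    have e3 : C (-((a : ℚ) ^ 2)) = -(C (a : ℚ) * C (a : ℚ)) := by
      rw [C_neg, ← C_mul, ← pow_two]
    calc C (c : ℚ) * (fq * (C (e : ℚ) * h₁)) ^ k
        = C (c : ℚ) * C ((e : ℚ) ^ k) * (fq * h₁) ^ k := by rw [C_pow]; ring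
      _ = C (c : ℚ) * C ((e : ℚ) ^ k) * (Rq * q₁) *
          (C (-((a : ℚ) ^ 2)) * C (-((a : ℚ) ^ 2))⁻¹) := by rw [e2, mul_one, ← hq₁, hh₁]
      _ = _ := by rw [e3, hRq, C_mul]; ring
  · have hcast : ∀ p : ℤ[X], aeval x p = (p.map (Int.castRingHom ℚ)).eval x := fun p => by
      rw [eval_map, aeval_def, algebraMap_int_eq]
    rw [hcast, hh, eval_mul, eval_C, mul_eq_zero] at hx
    have hx' := hx.resolve_left (Int.cast_ne_zero.2 he)
    have hxs : aeval (algebraMap ℚ ℂ x) s = 0 := by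
      rw [hh₁, map_mul, aeval_algebraMap_apply_eq_algebraMap_eval,
        aeval_algebraMap_apply_eq_algebraMap_eval, hx', map_zero, mul_zero]
    rw [hroots, aeval_algebraMap_apply_eq_algebraMap_eval, map_eq_zero, hRq, eval_mul, eval_sub,
      eval_one] at hxs
    rw [hcast, Polynomial.map_mul, Polynomial.map_sub, map_C, hA, eval_mul, eval_sub, eval_C,
      eval_mul, eval_C, eq_intCast]
    linear_combination (-((a : ℚ) ^ 2)) * hxs

/-- The radical bound for separable binary forms, the homogenising variable being counted. -/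
def LangevinBound : Prop :=
  ∀ f : ℤ[X], (f.map (Int.castRingHom ℚ)).Separable → 0 < f.natDegree → ∀ ε : ℝ, 0 < ε →
    ∃ C : ℝ, ∀ m n : ℤ, IsCoprime m n → n * hom f f.natDegree m n ≠ 0 →
      ((max m.natAbs n.natAbs : ℕ) : ℝ) ^ ((f.natDegree : ℝ) - 1 - ε) ≤
        C * ((radical (n * hom f f.natDegree m n).natAbs : ℕ) : ℝ)

theorem one_le_height {m n : ℤ} (hn : n ≠ 0) : 1 ≤ max m.natAbs n.natAbs :=
  le_max_of_le_right (Int.natAbs_pos.2 hn)

/-- **Elkies, Langevin**: the abc bound implies the radical bound for binary forms. -/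
theorem langevin_of_abc (habc : FA.Abc.ABCBound) : LangevinBound := by
  intro f hsep hd ε hε
  obtain ⟨D, a, A, h, q, c, k, hD, ha, hc, hAD, hlead, hdeg, heq, hzero⟩ := belyi_data hsep
  set d := f.natDegree with hddef
  set e := h.natDegree
  set δ : ℝ := ε / D with hδdef
  have hD' : (0 : ℝ) < D := by exact_mod_cast hD
  have hδ : 0 < δ := by positivity
  obtain ⟨K, hK1, hK⟩ := FA.Abc.abc_signed habc hδ
  have hA0 : A ≠ 0 := fun h0 => hlead (by rw [h0, coeff_zero])
  have hB0 : C a - A ≠ 0 := fun h0 => by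
    rw [sub_eq_zero] at h0
    rw [← h0, natDegree_C] at hAD
    omega
  have hR0 : A * (C a - A) ≠ 0 := mul_ne_zero hA0 hB0
  set Z := ((A * (C a - A)).aroots ℚ).toFinset
  set M : ℕ := Z.sup (fun x => max x.num.natAbs x.den) + 1 with hMdef
  set G : ℕ := (2 * (weight A D + 1)) ^ D * (a.natAbs * (A.coeff D).natAbs ^ D) with hGdef
  set E : ℕ := a.natAbs * c.natAbs * weight h e with hEdef
  refine ⟨max ((M : ℝ) ^ max ((d : ℝ) - 1 - ε) 0) (((G : ℝ) * K) ^ ((1 + δ)⁻¹) * E),
    fun m n hmn hne => ?_⟩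
  simp only [mul_ne_zero_iff] at hne
  obtain ⟨hn, hF⟩ := hne
  set H := max m.natAbs n.natAbs with hH
  have hH1 : (1 : ℝ) ≤ H := by exact_mod_cast one_le_height hn
  set R : ℝ := ((radical (n * hom f d m n).natAbs : ℕ) : ℝ) with hRdef
  have hR1 : 1 ≤ R := FA.Abc.one_le_rad_cast _
  set x : ℚ := (m : ℚ) / n with hx
  by_cases hRx : aeval x (A * (C a - A)) = 0
  · refine le_trans ?_ ((le_mul_of_one_le_right (by positivity) hR1).trans
      (mul_le_mul_of_nonneg_right (le_max_left _ _) (by linarith)))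
    have hxZ : x ∈ Z := Multiset.mem_toFinset.2 (mem_aroots.2 ⟨hR0, hRx⟩)
    have hHM : H ≤ M := by
      have h1 : max x.num.natAbs x.den ≤ Z.sup (fun x => max x.num.natAbs x.den) :=
        Finset.le_sup (f := fun x : ℚ => max x.num.natAbs x.den) hxZ
      have hm : m.natAbs = x.num.natAbs ∧ n.natAbs = x.den := by
        rcases lt_or_gt_of_ne hn with hn' | hn'
        · obtain ⟨e1, e2⟩ := (Rat.div_int_inj (b := -n) (d := x.den) (a := -m) (c := x.num)
            (by omega) (Int.natCast_pos.2 x.den_pos) (Int.isCoprime_iff_gcd_eq_one.1 hmn.neg_neg)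
            (by simpa [Int.natAbs_natCast] using x.reduced) (by
              push_cast; rw [neg_div_neg_eq, Rat.num_div_den]))
          omega
        · obtain ⟨e1, e2⟩ := (Rat.div_int_inj (b := n) (d := x.den) (a := m) (c := x.num)
            (by omega) (Int.natCast_pos.2 x.den_pos) (Int.isCoprime_iff_gcd_eq_one.1 hmn)
            (by simpa [Int.natAbs_natCast] using x.reduced) (by
              push_cast; rw [Rat.num_div_den]))
          omega
      omega
    calc (H : ℝ) ^ ((d : ℝ) - 1 - ε) ≤ (H : ℝ) ^ max ((d : ℝ) - 1 - ε) 0 :=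
          Real.rpow_le_rpow_of_exponent_le hH1 (le_max_left _ _)
      _ ≤ _ := Real.rpow_le_rpow (by linarith) (by exact_mod_cast hHM) (le_max_right _ _)
  have hn' : (n : ℚ) ≠ 0 := Int.cast_ne_zero.2 hn
  set A' := hom A D m n with hA'
  set B' := hom (C a - A) D m n with hB'
  have hBdeg : (C a - A).natDegree ≤ D :=
    (natDegree_sub_le _ _).trans (by rw [natDegree_C, hAD]; omega)
  have hAB : A' + B' = a * n ^ D := by rw [hA', hB', ← hom_add, add_sub_cancel, hom_C]
  have hA'0 : A' ≠ 0 := fun h0 => hRx <| by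
    have e1 := hom_cast A hAD.le m hn
    rw [← hA', h0, Int.cast_zero, zero_eq_mul] at e1
    rw [map_mul, e1.resolve_left (pow_ne_zero _ hn'), zero_mul]
  have hB'0 : B' ≠ 0 := fun h0 => hRx <| by
    have e1 := hom_cast (C a - A) hBdeg m hn
    rw [← hB', h0, Int.cast_zero, zero_eq_mul] at e1
    rw [map_mul, e1.resolve_left (pow_ne_zero _ hn'), mul_zero]
  set H₀ := hom h e m n with hH₀
  have hH₀0 : H₀ ≠ 0 := fun h0 => hRx <| hzero x <| by
    have e1 := hom_cast h (le_refl h.natDegree) m hn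
    rw [← hH₀, h0, Int.cast_zero, zero_eq_mul] at e1
    exact e1.resolve_left (pow_ne_zero _ hn')
  set F := hom f d m n
  set Q := hom q q.natDegree m n
  have hid : A' * B' * Q * n ^ (k * (d + e)) = c * (F * H₀) ^ k * n ^ (2 * D + q.natDegree) := by
    have e1 := congrArg (aeval x) heq
    simp only [map_mul, map_pow, aeval_C] at e1
    rw [algebraMap_int_eq, eq_intCast] at e1
    have : ((A' * B' * Q * n ^ (k * (d + e)) : ℤ) : ℚ) =
        ((c * (F * H₀) ^ k * n ^ (2 * D + q.natDegree) : ℤ) : ℚ) := by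
      push_cast
      rw [hom_cast A hAD.le m hn, hom_cast (C a - A) hBdeg m hn, hom_cast f le_rfl m hn,
        hom_cast h le_rfl m hn, hom_cast q le_rfl m hn]
      linear_combination -((n : ℚ) ^ (2 * D + q.natDegree) * (n : ℚ) ^ (k * (d + e))) * e1
    exact_mod_cast this
  have hrad : radical (A' * B' * (a * n ^ D)).natAbs ≤
      E * radical (n * F).natAbs * H ^ e := by
    set J := k + (2 * D + q.natDegree + D) + 1
    have hdvd : A' * B' * (a * n ^ D) ∣ a * c * ((n * F) * H₀) ^ J :=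
      calc A' * B' * (a * n ^ D) ∣ A' * B' * (a * n ^ D) * (Q * n ^ (k * (d + e))) :=
            dvd_mul_right _ _
        _ = a * c * (n ^ (2 * D + q.natDegree + D) * (F * H₀) ^ k) := by
            rw [pow_add n (2 * D + q.natDegree)]
            linear_combination a * n ^ D * hid
        _ ∣ a * c * ((n * (F * H₀)) ^ (2 * D + q.natDegree + D) * (n * (F * H₀)) ^ (k + 1)) :=
            mul_dvd_mul_left _ (mul_dvd_mul (pow_dvd_pow_of_dvd (dvd_mul_right _ _) _)
              ((pow_dvd_pow_of_dvd (dvd_mul_left _ _) _).trans (pow_dvd_pow _ (Nat.le_succ k))))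
        _ = a * c * ((n * F) * H₀) ^ J := by rw [← pow_add, mul_assoc n F H₀]; ring
    have hne' : (a * c * ((n * F) * H₀) ^ J).natAbs ≠ 0 :=
      Int.natAbs_ne_zero.2 (mul_ne_zero (mul_ne_zero ha hc)
        (pow_ne_zero _ (mul_ne_zero (mul_ne_zero hn hF) hH₀0)))
    refine (FA.Abc.rad_mono (Int.natAbs_dvd_natAbs.2 hdvd) hne').trans ?_
    rw [Int.natAbs_mul, Int.natAbs_mul a c, Int.natAbs_pow, Int.natAbs_mul (n * F) H₀]
    refine (FA.Abc.rad_mul_le _ _).trans ?_
    rw [UniqueFactorizationMonoid.radical_pow _ (by omega : J ≠ 0)]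
    calc radical (a.natAbs * c.natAbs) * radical ((n * F).natAbs * H₀.natAbs)
        ≤ a.natAbs * c.natAbs * (radical (n * F).natAbs * (weight h e * H ^ e)) :=
          Nat.mul_le_mul (FA.Abc.rad_mul_le_mul (by simp [ha]) (by simp [hc]))
            ((FA.Abc.rad_mul_le _ _).trans (Nat.mul_le_mul le_rfl
              ((FA.Abc.rad_le_self (by simp [hH₀0])).trans (hom_natAbs_le _ _ _ _))))
      _ = _ := by rw [hEdef]; ring
  obtain ⟨u, hu⟩ : ((Int.gcd A' (a * n ^ D) : ℕ) : ℤ) ∣ A' := Int.gcd_dvd_left _ _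
  obtain ⟨w, hw⟩ : ((Int.gcd A' (a * n ^ D) : ℕ) : ℤ) ∣ a * n ^ D := Int.gcd_dvd_right _ _
  set g := Int.gcd A' (a * n ^ D) with hg
  have hg0 : 0 < g := Int.gcd_pos_of_ne_zero_left _ hA'0
  have hgle : g ≤ a.natAbs * (A.coeff D).natAbs ^ D := by
    have e1 := dvd_of_dvd_hom hD hmn (g := (g : ℤ)) ⟨u, hu⟩ ⟨w, hw⟩
    have e2 := Int.natCast_dvd.1 e1
    rw [Int.natAbs_mul, Int.natAbs_pow] at e2
    exact Nat.le_of_dvd (Nat.mul_pos (Int.natAbs_pos.2 ha)
      (pow_pos (Int.natAbs_pos.2 hlead) _)) e2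
  have huw : IsCoprime u w := by
    rw [Int.isCoprime_iff_gcd_eq_one]
    have e1 := hg
    rw [hu, hw, Int.gcd_mul_left, Int.natAbs_natCast] at e1
    exact Nat.eq_of_mul_eq_mul_left hg0 (e1.symm.trans (mul_one g).symm)
  have hu0 : u ≠ 0 := fun h0 => hA'0 (by rw [hu, h0, mul_zero])
  have hw0 : w ≠ 0 := fun h0 => (mul_ne_zero ha (pow_ne_zero D hn)) (by rw [hw, h0, mul_zero])
  have hB'e : B' = g * (w - u) := by rw [mul_sub, ← hu, ← hw]; linarith
  have hv0 : w - u ≠ 0 := fun h0 => hB'0 (by rw [hB'e, h0, mul_zero])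
  have hcop : IsCoprime u (w - u) := by
    simpa [sub_eq_add_neg] using huw.add_mul_left_right (-1 : ℤ)
  have habc' := hK u (w - u) w hu0 hv0 hw0 hcop (by ring)
  set X := max u.natAbs (max (w - u).natAbs w.natAbs)
  have hheight : H ^ D ≤ G * X := by
    have e1 : A'.natAbs = g * u.natAbs := by rw [hu, Int.natAbs_mul, Int.natAbs_natCast]
    have e2 : n.natAbs ^ D ≤ g * w.natAbs := by
      rw [← Int.natAbs_natCast g, ← Int.natAbs_mul, ← hw, Int.natAbs_mul, Int.natAbs_pow]
      exact Nat.le_mul_of_pos_left _ (Int.natAbs_pos.2 ha)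
    refine (height_le hD hlead m n).trans ?_
    rw [hGdef, mul_assoc]
    refine Nat.mul_le_mul le_rfl ((max_le ?_ ?_).trans (Nat.mul_le_mul hgle le_rfl))
    · rw [← hA', e1]; exact Nat.mul_le_mul le_rfl (le_max_left _ _)
    · exact e2.trans (Nat.mul_le_mul le_rfl (le_max_of_le_right (le_max_right _ _)))
  have hrad2 : radical (u * (w - u) * w).natAbs ≤ radical (A' * B' * (a * n ^ D)).natAbs := by
    refine FA.Abc.rad_mono (Int.natAbs_dvd_natAbs.2 (mul_dvd_mul (mul_dvd_mul ⟨g, ?_⟩ ⟨g, ?_⟩)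
      ⟨g, ?_⟩)) (Int.natAbs_ne_zero.2 (mul_ne_zero (mul_ne_zero hA'0 hB'0)
        (mul_ne_zero ha (pow_ne_zero D hn))))
    · rw [hu, mul_comm]
    · rw [hB'e, mul_comm]
    · rw [hw, mul_comm]
  set S : ℝ := (E : ℝ) * R * (H : ℝ) ^ e with hS
  have hK0 : 0 ≤ K := by linarith
  have hmain : (H : ℝ) ^ D ≤ (G : ℝ) * K * S ^ (1 + δ) := by
    have e1 : ((H ^ D : ℕ) : ℝ) ≤ ((G * X : ℕ) : ℝ) := by exact_mod_cast hheight
    have e2 : ((radical (u * (w - u) * w).natAbs : ℕ) : ℝ) ≤
        ((E * radical (n * F).natAbs * H ^ e : ℕ) : ℝ) := by exact_mod_cast hrad2.trans hrad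
    push_cast at e1 e2
    refine e1.trans ((mul_le_mul_of_nonneg_left habc' (Nat.cast_nonneg G)).trans ?_)
    rw [mul_assoc (G : ℝ) K]
    exact mul_le_mul_of_nonneg_left (mul_le_mul_of_nonneg_left
      (Real.rpow_le_rpow (Nat.cast_nonneg _) e2 (by positivity)) hK0) (Nat.cast_nonneg G)
  have h1δ : (0 : ℝ) < 1 + δ := by linarith
  have h2 := Real.rpow_le_rpow (by positivity) hmain (inv_nonneg.2 h1δ.le)
  rw [Real.mul_rpow (by positivity) (by positivity), ← Real.rpow_mul (by positivity),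
    mul_inv_cancel₀ h1δ.ne', Real.rpow_one, ← Real.rpow_natCast, ← Real.rpow_mul (by positivity),
    hS, ← Real.rpow_natCast (H : ℝ) e] at h2
  have hexp : (d : ℝ) - 1 - ε + e ≤ (D : ℝ) * (1 + δ)⁻¹ := by
    have he : (e : ℝ) + d = D + 1 := by exact_mod_cast hdeg
    have hε' : ε = δ * D := by rw [hδdef]; field_simp
    rw [← div_eq_mul_inv, le_div_iff₀ h1δ]
    nlinarith [mul_pos (mul_pos hδ hδ) hD']
  have h3 : (H : ℝ) ^ ((d : ℝ) - 1 - ε) * (H : ℝ) ^ (e : ℝ) ≤
      ((G : ℝ) * K) ^ ((1 + δ)⁻¹) * E * R * (H : ℝ) ^ (e : ℝ) := by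
    rw [← Real.rpow_add (by linarith)]
    refine ((Real.rpow_le_rpow_of_exponent_le hH1 hexp).trans h2).trans_eq ?_
    ring
  exact (le_of_mul_le_mul_right h3 (by positivity)).trans
    (mul_le_mul_of_nonneg_right (le_max_right _ _) (by linarith))

/-- The form `x y (x + y)` turns the radical bound back into the abc bound. -/
theorem abc_of_langevin (hL : LangevinBound) : FA.Abc.ABCBound := by
  intro ε hε
  have hinj : Function.Injective (Int.castRingHom ℚ) := Int.cast_injective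
  set f : ℤ[X] := X ^ 2 + X with hf
  have hfd : f.natDegree = 2 := by rw [hf]; compute_degree!
  have hsep : (f.map (Int.castRingHom ℚ)).Separable := by
    rw [separable_def', hf, Polynomial.map_add, Polynomial.map_pow, map_X, derivative_add,
      derivative_X_sq, derivative_X]
    exact ⟨-4, C 2 * X + 1, by rw [C_ofNat]; ring⟩
  obtain ⟨C₀, hC⟩ := hL f hsep (by omega) (ε / (1 + ε)) (by positivity)
  refine ⟨2 * max C₀ 1 ^ (1 + ε), fun a b c ha hb hab habc => ?_⟩
  have hhom : hom f f.natDegree a b = a * (a + b) := by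
    rw [hfd, hom, Finset.sum_range_succ, Finset.sum_range_succ, Finset.sum_range_one, hf]
    simp [coeff_X, coeff_X_pow]
    ring
  have hprod : (b : ℤ) * hom f f.natDegree a b = ((a * b * c : ℕ) : ℤ) := by
    rw [hhom, ← habc]; push_cast; ring
  have e := hC a b (Nat.isCoprime_iff_coprime.2 hab)
    (by rw [hprod]; exact_mod_cast (by subst habc; positivity : a * b * c ≠ 0))
  rw [hprod, Int.natAbs_natCast, Int.natAbs_natCast, Int.natAbs_natCast, hfd] at e
  set H : ℝ := ((max a b : ℕ) : ℝ)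
  set R : ℝ := ((radical (a * b * c) : ℕ) : ℝ)
  have hR0 : 0 ≤ R := Nat.cast_nonneg _
  have hH0 : 0 ≤ H := Nat.cast_nonneg _
  have hexp : (((2 : ℕ) : ℝ) - 1 - ε / (1 + ε)) * (1 + ε) = 1 := by
    field_simp
    push_cast
    ring
  have e2 := Real.rpow_le_rpow (Real.rpow_nonneg hH0 _)
    (e.trans (mul_le_mul_of_nonneg_right (le_max_left C₀ 1) hR0)) (by linarith : 0 ≤ 1 + ε)
  rw [← Real.rpow_mul hH0, hexp, Real.rpow_one, Real.mul_rpow (by positivity) hR0] at e2
  have hc2 : (c : ℝ) ≤ 2 * H := by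
    have : c ≤ 2 * max a b := by omega
    have h' : (c : ℝ) ≤ ((2 * max a b : ℕ) : ℝ) := by exact_mod_cast this
    simpa [H] using h'
  calc (c : ℝ) ≤ 2 * H := hc2
    _ ≤ 2 * (max C₀ 1 ^ (1 + ε) * R ^ (1 + ε)) := by linarith
    _ = _ := by ring

/-- The abc conjecture is equivalent to the radical bound for binary forms. -/
theorem abc_iff_langevin : FA.Abc.ABCBound ↔ LangevinBound := ⟨langevin_of_abc, abc_of_langevin⟩

theorem hom_zero_right (f : ℤ[X]) (N : ℕ) (m : ℤ) : hom f N m 0 = f.coeff N * m ^ N := by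
  rw [hom, Finset.sum_eq_single N]
  · simp
  · intro i hi hiN
    have : i < N := lt_of_le_of_ne (Nat.lt_succ_iff.1 (Finset.mem_range.1 hi)) hiN
    rw [zero_pow (by omega), mul_zero]
  · simp

/-- **Conditional, Elkies–Langevin**: the values of a separable binary form of degree `d` at
coprime integers have radical at least `max |m| |n| ^ (d - 2 - ε)`. -/
theorem rad_form_lower (habc : FA.Abc.ABCBound) {f : ℤ[X]}
    (hsep : (f.map (Int.castRingHom ℚ)).Separable) (hd : 0 < f.natDegree) {ε : ℝ} (hε : 0 < ε) :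
    ∃ C : ℝ, ∀ m n : ℤ, IsCoprime m n → hom f f.natDegree m n ≠ 0 →
      ((max m.natAbs n.natAbs : ℕ) : ℝ) ^ ((f.natDegree : ℝ) - 2 - ε) ≤
        C * ((radical (hom f f.natDegree m n).natAbs : ℕ) : ℝ) := by
  obtain ⟨C, hC⟩ := langevin_of_abc habc f hsep hd ε hε
  refine ⟨max C 1, fun m n hmn hF => ?_⟩
  set R : ℝ := ((radical (hom f f.natDegree m n).natAbs : ℕ) : ℝ)
  have hR1 : 1 ≤ R := FA.Abc.one_le_rad_cast _
  rcases eq_or_ne n 0 with rfl | hn
  · rw [Int.isUnit_iff_natAbs_eq.1 (isCoprime_zero_right.1 hmn)]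
    simp only [Int.natAbs_zero, Nat.max_zero, Nat.cast_one, Real.one_rpow]
    exact one_le_mul_of_one_le_of_one_le (le_max_right _ _) hR1
  set H : ℝ := ((max m.natAbs n.natAbs : ℕ) : ℝ)
  have hH1 : 1 ≤ H := Nat.one_le_cast.2 (one_le_height hn)
  have e := hC m n hmn (mul_ne_zero hn hF)
  have hle : ((radical (n * hom f f.natDegree m n).natAbs : ℕ) : ℝ) ≤ H * R := by
    have : radical (n * hom f f.natDegree m n).natAbs ≤
        max m.natAbs n.natAbs * radical (hom f f.natDegree m n).natAbs := by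
      rw [Int.natAbs_mul]
      exact (FA.Abc.rad_mul_le _ _).trans (Nat.mul_le_mul_right _
        ((FA.Abc.rad_le_self (by simp [hn])).trans (le_max_right _ _)))
    have h' : ((radical (n * hom f f.natDegree m n).natAbs : ℕ) : ℝ) ≤
        ((max m.natAbs n.natAbs * radical (hom f f.natDegree m n).natAbs : ℕ) : ℝ) := by
      exact_mod_cast this
    rw [Nat.cast_mul] at h'
    exact h'
  refine le_of_mul_le_mul_right ?_ (by linarith : 0 < H)
  calc H ^ ((f.natDegree : ℝ) - 2 - ε) * H = H ^ ((f.natDegree : ℝ) - 1 - ε) := by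
        rw [← Real.rpow_add_one (by linarith)]; ring_nf
    _ ≤ max C 1 * (H * R) := e.trans (mul_le_mul (le_max_left _ _) hle (Nat.cast_nonneg _)
        (by positivity))
    _ = max C 1 * R * H := by ring

theorem hom_one (f : ℤ[X]) (m : ℤ) : hom f f.natDegree m 1 = f.eval m := by
  rw [eval_eq_sum_range, hom]
  simp

/-- **Conditional**: the values of a separable polynomial of degree `d` have radical at least
`|x| ^ (d - 1 - ε)`. -/
theorem rad_value_lower (habc : FA.Abc.ABCBound) {f : ℤ[X]}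
    (hsep : (f.map (Int.castRingHom ℚ)).Separable) (hd : 0 < f.natDegree) {ε : ℝ} (hε : 0 < ε) :
    ∃ C : ℝ, ∀ x : ℤ, x ≠ 0 → f.eval x ≠ 0 →
      (x.natAbs : ℝ) ^ ((f.natDegree : ℝ) - 1 - ε) ≤
        C * ((radical (f.eval x).natAbs : ℕ) : ℝ) := by
  obtain ⟨C, hC⟩ := langevin_of_abc habc f hsep hd ε hε
  refine ⟨C, fun x hx hfx => ?_⟩
  have e := hC x 1 isCoprime_one_right (by rwa [hom_one, one_mul])
  rwa [hom_one, one_mul, Int.natAbs_one, max_eq_left (Int.natAbs_pos.2 hx)] at e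

/-- **Conditional**: a separable polynomial of degree at least three takes only finitely many
squarefull values. -/
theorem squarefull_values_finite (habc : FA.Abc.ABCBound) {f : ℤ[X]}
    (hsep : (f.map (Int.castRingHom ℚ)).Separable) (hd : 3 ≤ f.natDegree) :
    {x : ℤ | ∀ p : ℕ, p.Prime → (p : ℤ) ∣ f.eval x → (p : ℤ) ^ 2 ∣ f.eval x}.Finite := by
  obtain ⟨C, hC⟩ := rad_value_lower habc hsep (by omega) (ε := 1 / 4) (by norm_num)
  set d := f.natDegree with hddef
  set S := weight f d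
  obtain ⟨M, hM⟩ := exists_nat_ge ((max C 1 * Real.sqrt (S : ℝ)) ^ 4)
  have hf0 : f ≠ 0 := fun h => by rw [h, natDegree_zero] at hddef; omega
  refine ((Set.finite_Icc (-(M : ℤ)) M).union (finite_setOfPred_isRoot hf0)).subset fun x hx => ?_
  by_cases hfx : f.eval x = 0
  · exact Or.inr hfx
  left
  rcases eq_or_ne x 0 with rfl | hx0
  · simp
  have e := hC x hx0 hfx
  set r := radical (f.eval x).natAbs
  have hr : r ^ 2 ≤ S * x.natAbs ^ d := by
    refine (Nat.le_of_dvd (Int.natAbs_pos.2 hfx) (FA.Abc.rad_sq_dvd fun p hp hpd => ?_)).trans ?_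
    · have h' := hx p hp (Int.natCast_dvd.2 hpd)
      rw [← Nat.cast_pow] at h'
      exact Int.natCast_dvd.1 h'
    · have h' := hom_natAbs_le f d x 1
      rw [hddef, hom_one, Int.natAbs_one, max_eq_left (Int.natAbs_pos.2 hx0)] at h'
      exact h'
  set y : ℝ := (x.natAbs : ℝ)
  have hy : 1 ≤ y := Nat.one_le_cast.2 (Int.natAbs_pos.2 hx0)
  set K : ℝ := max C 1 * Real.sqrt (S : ℝ)
  have hr' : (r : ℝ) ≤ Real.sqrt (S : ℝ) * y ^ ((d : ℝ) / 2) := by
    have h1 := (Nat.cast_le (α := ℝ)).2 hr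
    rw [Nat.cast_pow, Nat.cast_mul, Nat.cast_pow] at h1
    have h2 := Real.sqrt_le_sqrt h1
    rw [Real.sqrt_sq (Nat.cast_nonneg _), Real.sqrt_mul (Nat.cast_nonneg _)] at h2
    rwa [Real.sqrt_eq_rpow (y ^ d), ← Real.rpow_natCast, ← Real.rpow_mul (by linarith),
      mul_one_div] at h2
  have h3 : y ^ (1 / 4 : ℝ) * y ^ ((d : ℝ) / 2) ≤ K * y ^ ((d : ℝ) / 2) := by
    rw [← Real.rpow_add (by linarith)]
    refine le_trans (Real.rpow_le_rpow_of_exponent_le hy ?_) (e.trans ((mul_le_mul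
      (le_max_left C 1) hr' (Nat.cast_nonneg _) (by positivity)).trans_eq ?_))
    · have : (3 : ℝ) ≤ d := by exact_mod_cast hd
      linarith
    · ring
  have h4 := pow_le_pow_left₀ (by positivity) (le_of_mul_le_mul_right h3 (by positivity)) 4
  rw [← Real.rpow_mul_natCast (by linarith), show (1 / 4 : ℝ) * (4 : ℕ) = 1 by norm_num,
    Real.rpow_one] at h4
  have h5 : x.natAbs ≤ M := Nat.cast_le.1 (h4.trans hM)
  rw [Set.mem_Icc]
  omega

end FA.Belyi

end
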