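import Mathlib.FieldTheory.Perfect
import Mathlib.FieldTheory.Minpoly.Finite
import Mathlib.FieldTheory.IntermediateField.Adjoin.Basic
import Mathlib.Analysis.Complex.Polynomial.Basic
import Mathlib.RingTheory.Polynomial.UniqueFactorization
import Mathlib.Algebra.Polynomial.Derivative

/-!
# Belyi's theorem for the projective line

For every finite set `S` of algebraic numbers there is a non-constant polynomial with rational
coefficients mapping `S` and all its own critical points into `{0, 1}`. Such a polynomial is an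
extremal case of the theorem of Mason and Stothers.
-/

set_option autoImplicit false

noncomputable section

open Polynomial

namespace FA.Belyi

/-- All critical values of `P` lie in `s`. -/
def CritIn (P : ℚ[X]) (s : Set ℂ) : Prop :=
  ∀ z : ℂ, aeval z (derivative P) = 0 → aeval z P ∈ s

theorem critIn_comp {P Q : ℚ[X]} {s : Set ℂ} (hQ : CritIn Q s)
    (h : ∀ z : ℂ, aeval z (derivative P) = 0 → aeval (aeval z P) Q ∈ s) :
    CritIn (Q.comp P) s := by
  intro z hz
  rw [derivative_comp, map_mul, aeval_comp, mul_eq_zero] at hz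
  rw [aeval_comp]
  rcases hz with hz | hz
  · exact h z hz
  · exact hQ _ hz

theorem comp_pos {P Q : ℚ[X]} (hP : 0 < P.natDegree) (hQ : 0 < Q.natDegree) :
    0 < (Q.comp P).natDegree := by
  rw [natDegree_comp]
  exact Nat.mul_pos hQ hP

/-! ### The second step: rational points -/

/-- The polynomial `c X ^ i (1 - X) ^ j` taking the value `1` at its critical point
`i / (i + j)`. -/
def belyiPoly (i j : ℕ) : ℚ[X] :=
  C (((i + j : ℕ) : ℚ) ^ (i + j) / ((i : ℚ) ^ i * (j : ℚ) ^ j)) * X ^ i * (1 - X) ^ j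

theorem belyiPoly_eval {i j : ℕ} (hi : 0 < i) (hj : 0 < j) :
    (belyiPoly i j).eval ((i : ℚ) / (i + j)) = 1 := by
  have hij : (i : ℚ) + j ≠ 0 := by positivity
  rw [belyiPoly, eval_mul, eval_mul, eval_C, eval_pow, eval_pow, eval_X, eval_sub, eval_one,
    eval_X, show (1 : ℚ) - (i : ℚ) / (i + j) = (j : ℚ) / (i + j) by field_simp; ring, div_pow,
    div_pow]
  push_cast
  rw [pow_add]
  field_simp

theorem belyiPoly_coeff_ne {i j : ℕ} (hi : 0 < i) (hj : 0 < j) :
    ((i + j : ℕ) : ℚ) ^ (i + j) / ((i : ℚ) ^ i * (j : ℚ) ^ j) ≠ 0 := by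
  have h1 : ((i + j : ℕ) : ℚ) ≠ 0 := by exact_mod_cast (by omega : i + j ≠ 0)
  positivity

theorem belyiPoly_natDegree {i j : ℕ} (hi : 0 < i) (hj : 0 < j) :
    0 < (belyiPoly i j).natDegree := by
  have h1 : (1 - X : ℚ[X]).natDegree = 1 := by compute_degree!
  have h1' : (1 - X : ℚ[X]) ≠ 0 := fun h => by simp [h] at h1
  rw [belyiPoly, mul_assoc, natDegree_C_mul (belyiPoly_coeff_ne hi hj),
    natDegree_mul (pow_ne_zero _ X_ne_zero) (pow_ne_zero _ h1'), natDegree_pow, natDegree_pow,
    natDegree_X, h1]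
  omega

theorem belyiPoly_eval_zero {i j : ℕ} (hi : 0 < i) : (belyiPoly i j).eval 0 = 0 := by
  simp [belyiPoly, hi.ne']

theorem belyiPoly_eval_one {i j : ℕ} (hj : 0 < j) : (belyiPoly i j).eval 1 = 0 := by
  simp [belyiPoly, hj.ne']

theorem belyiPoly_crit {i j : ℕ} (hi : 0 < i) (hj : 0 < j) :
    CritIn (belyiPoly i j) {0, 1} := by
  intro z hz
  obtain ⟨k, rfl⟩ : ∃ k, i = k + 1 := ⟨i - 1, by omega⟩
  obtain ⟨l, rfl⟩ : ∃ l, j = l + 1 := ⟨j - 1, by omega⟩
  have hc := belyiPoly_coeff_ne hi hj
  set c : ℚ := (((k + 1 + (l + 1) : ℕ) : ℚ) ^ (k + 1 + (l + 1)) /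
      (((k + 1 : ℕ) : ℚ) ^ (k + 1) * ((l + 1 : ℕ) : ℚ) ^ (l + 1))) with hcdef
  have hd : derivative (belyiPoly (k + 1) (l + 1)) = C c * X ^ k * (1 - X) ^ l *
      (C ((k + 1 : ℕ) : ℚ) * (1 - X) - C ((l + 1 : ℕ) : ℚ) * X) := by
    rw [belyiPoly, ← hcdef]
    simp only [derivative_mul, derivative_C, derivative_pow, derivative_X, derivative_sub,
      derivative_one, Nat.add_sub_cancel, zero_mul, zero_add, zero_sub, mul_one]
    ring
  rw [hd] at hz
  simp only [map_mul, map_sub, map_pow, map_one, aeval_X, aeval_C, mul_eq_zero,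
    pow_eq_zero_iff', map_eq_zero, hc, false_or] at hz
  rcases hz with (⟨h, -⟩ | ⟨h, -⟩) | h
  · left
    simp [belyiPoly, h]
  · left
    rw [sub_eq_zero] at h
    simp [belyiPoly, ← h]
  · right
    have h0 : ((k + 1 : ℕ) : ℂ) + ((l + 1 : ℕ) : ℂ) ≠ 0 := by
      rw [← Nat.cast_add, Nat.cast_ne_zero]; omega
    have hz' : z = algebraMap ℚ ℂ (((k + 1 : ℕ) : ℚ) / ((k + 1 : ℕ) + (l + 1 : ℕ))) := by
      rw [map_div₀, map_add, map_natCast, map_natCast, eq_div_iff h0]
      rw [map_natCast, map_natCast] at h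
      linear_combination -h
    rw [hz', aeval_algebraMap_apply_eq_algebraMap_eval, belyiPoly_eval hi hj, map_one]
    rfl

/-- Belyi's second step: a finite set of rational numbers is sent to `{0, 1}` by a polynomial with
critical values in `{0, 1}`. -/
theorem exists_zero_one_of_rat (T : Finset ℚ) :
    ∃ P : ℚ[X], 0 < P.natDegree ∧ (∀ t ∈ T, P.eval t = 0 ∨ P.eval t = 1) ∧
      CritIn P {0, 1} := by
  induction hn : T.card using Nat.strong_induction_on generalizing T with
  | _ n ih =>
  subst hn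
  have lin : ∀ a b : ℚ, a ≠ b → ∃ P : ℚ[X], P.natDegree = 1 ∧ P.eval a = 0 ∧ P.eval b = 1 ∧
      (∀ t, P.eval t = (t - a) / (b - a)) ∧ ∀ z : ℂ, aeval z (derivative P) ≠ 0 := by
    intro a b hab
    have hba : (b - a)⁻¹ ≠ 0 := inv_ne_zero (sub_ne_zero.2 hab.symm)
    have hev : ∀ t, (C (b - a)⁻¹ * (X - C a)).eval t = (t - a) / (b - a) := fun t => by
      simp [div_eq_inv_mul]
    refine ⟨C (b - a)⁻¹ * (X - C a), by rw [natDegree_C_mul hba, natDegree_X_sub_C],
      by simp [hev], by rw [hev, div_self (sub_ne_zero.2 hab.symm)], hev, fun z => ?_⟩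
    simpa [derivative_mul] using sub_ne_zero.2 (Rat.cast_injective.ne hab.symm)
  rcases Nat.lt_or_ge T.card 3 with h3 | h3
  · rcases (by omega : T.card = 0 ∨ T.card = 1 ∨ T.card = 2) with h | h | h
    · obtain ⟨P, hP, -, -, -, hd⟩ := lin 0 1 zero_ne_one
      exact ⟨P, by omega, by simp [Finset.card_eq_zero.1 h], fun z hz => absurd hz (hd z)⟩
    · obtain ⟨a, rfl⟩ := Finset.card_eq_one.1 h
      obtain ⟨P, hP, ha, -, -, hd⟩ := lin a (a + 1) (by linarith)
      exact ⟨P, by omega, by simp [ha], fun z hz => absurd hz (hd z)⟩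
    · obtain ⟨a, b, hab, rfl⟩ := Finset.card_eq_two.1 h
      obtain ⟨P, hP, ha, hb, -, hd⟩ := lin a b hab
      exact ⟨P, by omega, by simp [ha, hb], fun z hz => absurd hz (hd z)⟩
  have hne : T.Nonempty := Finset.card_pos.1 (by omega)
  set a := T.min' hne
  set b := T.max' hne
  have hab : a < b := Finset.min'_lt_max'_of_card T (by omega)
  obtain ⟨L, hL, hLa, hLb, hLev, hLd⟩ := lin a b hab.ne
  obtain ⟨t₀, ht₀, hta, htb⟩ : ∃ t ∈ T, t ≠ a ∧ t ≠ b := by
    by_contra! hall
    have hsub : T ⊆ {a, b} := fun t ht => by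
      rcases eq_or_ne t a with h | h
      · simp [h]
      · simp [hall t ht h]
    have := (Finset.card_le_card hsub).trans Finset.card_le_two
    omega
  set q : ℚ := (t₀ - a) / (b - a) with hq
  have ha₀ : a < t₀ := lt_of_le_of_ne (Finset.min'_le T t₀ ht₀) hta.symm
  have hb₀ : t₀ < b := lt_of_le_of_ne (Finset.le_max' T t₀ ht₀) htb
  have hq0 : 0 < q := div_pos (by linarith) (by linarith)
  have hq1 : q < 1 := by rw [hq, div_lt_one (by linarith)]; linarith
  set i := q.num.natAbs
  set j := q.den - q.num.natAbs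
  have hnum : (i : ℤ) = q.num := Int.natAbs_of_nonneg (Rat.num_nonneg.2 hq0.le)
  have hi : 0 < i := Int.natAbs_pos.2 (Rat.num_ne_zero.2 hq0.ne')
  have hlt : i < q.den := by
    have h : q.num < q.den := Rat.num_lt_denom_iff.2 hq1
    omega
  have hj : 0 < j := Nat.sub_pos_of_lt hlt
  have hqij : q = (i : ℚ) / (i + j) := by
    have e1 : ((i : ℚ) + j) = q.den := by
      rw [← Nat.cast_add, Nat.add_sub_cancel' hlt.le]
    rw [e1, show (i : ℚ) = ((i : ℤ) : ℚ) from (Int.cast_natCast i).symm, hnum, Rat.num_div_den]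
  set B := belyiPoly i j
  set T' : Finset ℚ := {0, 1} ∪ ((T.erase a).erase b |>.erase t₀).image fun t => B.eval (L.eval t)
  have hlt' : T'.card < T.card := by
    have e1 : t₀ ∈ (T.erase a).erase b := by simp [ht₀, hta, htb]
    have e2 : b ∈ T.erase a := by simp [b, Finset.max'_mem, hab.ne']
    have e3 : a ∈ T := Finset.min'_mem T hne
    have c1 := Finset.card_erase_of_mem e1
    have c2 := Finset.card_erase_of_mem e2
    have c3 := Finset.card_erase_of_mem e3
    have c4 : T'.card ≤ 2 + (((T.erase a).erase b).erase t₀).card :=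
      (Finset.card_union_le _ _).trans (add_le_add Finset.card_le_two Finset.card_image_le)
    omega
  obtain ⟨Q, hQ, hQT, hQc⟩ := ih T'.card hlt' T' rfl
  have hQ01 : ∀ w ∈ ({0, 1} : Set ℂ), aeval w Q ∈ ({0, 1} : Set ℂ) := by
    rintro w hw
    have h0 := hQT 0 (by simp [T'])
    have h1 := hQT 1 (by simp [T'])
    rcases hw with rfl | rfl
    · rw [← map_zero (algebraMap ℚ ℂ), aeval_algebraMap_apply_eq_algebraMap_eval]
      rcases h0 with h | h <;> simp [h]
    · rw [← map_one (algebraMap ℚ ℂ), aeval_algebraMap_apply_eq_algebraMap_eval]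
      rcases h1 with h | h <;> simp [h]
  refine ⟨Q.comp (B.comp L), comp_pos (comp_pos (by omega) (belyiPoly_natDegree hi hj)) hQ,
    fun t ht => ?_, critIn_comp hQc fun z hz => ?_⟩
  · rw [eval_comp, eval_comp]
    refine hQT _ ?_
    by_cases h1 : t = a
    · simp [T', B, h1, hLa, belyiPoly_eval_zero hi]
    by_cases h2 : t = b
    · simp [T', B, h2, hLb, belyiPoly_eval_one hj]
    by_cases h4 : t = t₀
    · simp [T', B, h4, hLev, ← hq, hqij, belyiPoly_eval hi hj]
    exact Finset.mem_union_right _ (Finset.mem_image.2 ⟨t, by simp [ht, h1, h2, h4], rfl⟩)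
  · refine hQ01 _ ?_
    rw [derivative_comp, map_mul, aeval_comp, mul_eq_zero] at hz
    rw [aeval_comp]
    exact belyiPoly_crit hi hj _ (hz.resolve_left (hLd z))

/-! ### The first step: algebraic points -/

theorem minpoly_natDegree_aeval_le {z : ℂ} (hz : IsIntegral ℚ z) (p : ℚ[X]) :
    (minpoly ℚ (aeval z p)).natDegree ≤ (minpoly ℚ z).natDegree := by
  have := IntermediateField.adjoin.finiteDimensional hz
  have h := minpoly.natDegree_le (A := ℚ) (aeval (IntermediateField.AdjoinSimple.gen ℚ z) p)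
  rw [IntermediateField.adjoin.finrank hz] at h
  rwa [← minpoly.algebraMap_eq (algebraMap (IntermediateField.adjoin ℚ {z}) ℂ).injective,
    ← aeval_algebraMap_apply, IntermediateField.AdjoinSimple.algebraMap_gen] at h

theorem isIntegral_aeval {z : ℂ} (hz : IsIntegral ℚ z) (p : ℚ[X]) : IsIntegral ℚ (aeval z p) := by
  have h := (aeval (⟨z, hz⟩ : integralClosure ℚ ℂ) p).2
  rwa [Polynomial.aeval_subalgebra_coe] at h

theorem minpoly_natDegree_le_of_root {z : ℂ} {p : ℚ[X]} (hp : p ≠ 0) (h : aeval z p = 0) :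
    IsIntegral ℚ z ∧ (minpoly ℚ z).natDegree ≤ p.natDegree :=
  ⟨IsAlgebraic.isIntegral ⟨p, hp, h⟩, natDegree_le_of_dvd (minpoly.dvd ℚ z h) hp⟩

theorem minpoly_natDegree_eq_one_of_range {z : ℂ} (h : z ∈ Set.range (algebraMap ℚ ℂ)) :
    IsIntegral ℚ z ∧ (minpoly ℚ z).natDegree = 1 := by
  obtain ⟨q, rfl⟩ := h
  exact ⟨isIntegral_algebraMap, by rw [minpoly.eq_X_sub_C]; exact natDegree_X_sub_C q⟩

/-- Belyi's first step: a polynomial over `ℚ` with rational values on `S` and rational critical
values. -/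
theorem exists_rational_values (N : ℕ) (S : Finset ℂ)
    (hS : ∀ z ∈ S, IsIntegral ℚ z ∧ (minpoly ℚ z).natDegree ≤ N + 1) :
    ∃ P : ℚ[X], 0 < P.natDegree ∧ (∀ z ∈ S, aeval z P ∈ Set.range (algebraMap ℚ ℂ)) ∧
      CritIn P (Set.range (algebraMap ℚ ℂ)) := by
  induction N generalizing S with
  | zero =>
    refine ⟨X, by simp, fun z hz => ?_, fun z hz => by simp at hz⟩
    have := minpoly.natDegree_pos (hS z hz).1
    have := (hS z hz).2
    rw [aeval_X]
    exact minpoly.natDegree_eq_one_iff.1 (by omega)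
  | succ N ihN =>
    induction hk : (S.filter fun z => (minpoly ℚ z).natDegree = N + 2).card
      using Nat.strong_induction_on generalizing S with
    | _ k ihk =>
    rcases Finset.eq_empty_or_nonempty (S.filter fun z => (minpoly ℚ z).natDegree = N + 2) with
      h0 | ⟨α, hα⟩
    · refine ihN S fun z hz => ⟨(hS z hz).1, ?_⟩
      have := (hS z hz).2
      have : (minpoly ℚ z).natDegree ≠ N + 2 := fun h => by
        have := h0 ▸ Finset.mem_filter.2 ⟨hz, h⟩
        simp at this
      omega
    obtain ⟨hαS, hαd⟩ := Finset.mem_filter.1 hα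
    set p := minpoly ℚ α with hp
    have hpd : p.natDegree = N + 2 := hαd
    have hp0 : p ≠ 0 := minpoly.ne_zero (hS α hαS).1
    have hp' : derivative p ≠ 0 := fun h => by
      have := derivative_eq_zero.1 h
      omega
    set S' : Finset ℂ := S.image (fun z => aeval z p) ∪
      ((derivative p).aroots ℂ).toFinset.image (fun z => aeval z p)
    have hcrit : ∀ z, z ∈ ((derivative p).aroots ℂ).toFinset →
        IsIntegral ℚ z ∧ (minpoly ℚ z).natDegree ≤ N + 1 := fun z hz => by
      obtain ⟨h1, h2⟩ := minpoly_natDegree_le_of_root hp'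
        (mem_aroots.1 (Multiset.mem_toFinset.1 hz)).2
      have := natDegree_derivative_le p
      exact ⟨h1, by omega⟩
    have hS' : ∀ w ∈ S', IsIntegral ℚ w ∧ (minpoly ℚ w).natDegree ≤ N + 1 + 1 := by
      intro w hw
      rcases Finset.mem_union.1 hw with hw | hw <;> obtain ⟨z, hz, rfl⟩ := Finset.mem_image.1 hw
      · exact ⟨isIntegral_aeval (hS z hz).1 p, (minpoly_natDegree_aeval_le (hS z hz).1 p).trans
          (hS z hz).2⟩
      · exact ⟨isIntegral_aeval (hcrit z hz).1 p,
          (minpoly_natDegree_aeval_le (hcrit z hz).1 p).trans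
          ((hcrit z hz).2.trans (Nat.le_succ _))⟩
    have hlt : (S'.filter fun z => (minpoly ℚ z).natDegree = N + 2).card < k := by
      have hsub : (S'.filter fun z => (minpoly ℚ z).natDegree = N + 2) ⊆
          ((S.filter fun z => (minpoly ℚ z).natDegree = N + 2).erase α).image
            (fun z => aeval z p) := by
        intro w hw
        obtain ⟨hw, hwd⟩ := Finset.mem_filter.1 hw
        rcases Finset.mem_union.1 hw with hw | hw <;> obtain ⟨z, hz, rfl⟩ := Finset.mem_image.1 hw
        · have hzd : (minpoly ℚ z).natDegree = N + 2 := by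
            have := minpoly_natDegree_aeval_le (hS z hz).1 p
            have := (hS z hz).2
            omega
          refine Finset.mem_image.2 ⟨z, Finset.mem_erase.2 ⟨fun h => ?_,
            Finset.mem_filter.2 ⟨hz, hzd⟩⟩, rfl⟩
          subst h
          rw [hp, minpoly.aeval, minpoly.zero, natDegree_X] at hwd
          omega
        · have := minpoly_natDegree_aeval_le (hcrit z hz).1 p
          have := (hcrit z hz).2
          omega
      have h1 := (Finset.card_le_card hsub).trans Finset.card_image_le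
      rw [Finset.card_erase_of_mem hα] at h1
      have := Finset.card_pos.2 ⟨α, hα⟩
      omega
    obtain ⟨Q, hQ, hQS, hQc⟩ := ihk _ hlt S' hS' rfl
    refine ⟨Q.comp p, comp_pos (by omega) hQ, fun z hz => ?_, critIn_comp hQc fun z hz => ?_⟩
    · rw [aeval_comp]
      exact hQS _ (Finset.mem_union_left _ (Finset.mem_image.2 ⟨z, hz, rfl⟩))
    · refine hQS _ (Finset.mem_union_right _ (Finset.mem_image.2 ⟨z, ?_, rfl⟩))
      exact Multiset.mem_toFinset.2 (mem_aroots.2 ⟨hp', hz⟩)

/-- **Belyi's theorem.** For every non-zero `g ∈ ℚ[X]` there is a non-constant `P ∈ ℚ[X]` which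
sends every root of `g` and every critical point of `P` to `0` or `1`. -/
theorem belyi {g : ℚ[X]} (hg : g ≠ 0) :
    ∃ P : ℚ[X], 0 < P.natDegree ∧ (∀ z : ℂ, aeval z g = 0 → aeval z P ∈ ({0, 1} : Set ℂ)) ∧
      CritIn P {0, 1} := by
  obtain ⟨P₁, hP₁, hS, hc⟩ := exists_rational_values g.natDegree (g.aroots ℂ).toFinset
    fun z hz => by
      obtain ⟨h1, h2⟩ := minpoly_natDegree_le_of_root hg
        (mem_aroots.1 (Multiset.mem_toFinset.1 hz)).2
      exact ⟨h1, by omega⟩
  set W : Finset ℂ := (g.aroots ℂ).toFinset.image (fun z => aeval z P₁) ∪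
    ((derivative P₁).aroots ℂ).toFinset.image (fun z => aeval z P₁)
  set T : Finset ℚ := W.preimage (algebraMap ℚ ℂ) (algebraMap ℚ ℂ).injective.injOn
  obtain ⟨P₂, hP₂, hT, hc₂⟩ := exists_zero_one_of_rat T
  have key : ∀ w ∈ W, w ∈ Set.range (algebraMap ℚ ℂ) → aeval w P₂ ∈ ({0, 1} : Set ℂ) := by
    rintro w hw ⟨t, rfl⟩
    rw [aeval_algebraMap_apply_eq_algebraMap_eval]
    rcases hT t (Finset.mem_preimage.2 hw) with h | h <;> simp [h]
  have hd : derivative P₁ ≠ 0 := fun h => by
    have := derivative_eq_zero.1 h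
    omega
  refine ⟨P₂.comp P₁, comp_pos hP₁ hP₂, fun z hz => ?_, critIn_comp hc₂ fun z hz => ?_⟩
  · have hz' : z ∈ (g.aroots ℂ).toFinset := Multiset.mem_toFinset.2 (mem_aroots.2 ⟨hg, hz⟩)
    rw [aeval_comp]
    exact key _ (Finset.mem_union_left _ (Finset.mem_image.2 ⟨z, hz', rfl⟩)) (hS z hz')
  · exact key _ (Finset.mem_union_right _ (Finset.mem_image.2
      ⟨z, Multiset.mem_toFinset.2 (mem_aroots.2 ⟨hd, hz⟩), rfl⟩)) (hc z hz)

/-- A polynomial with critical values in `{0, 1}` is extremal for Mason–Stothers: `P (P - 1)` has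
exactly `deg P + 1` distinct complex roots. -/
theorem card_roots_eq {P : ℚ[X]} (hP : 0 < P.natDegree) (hc : CritIn P {0, 1}) :
    ((P * (P - 1)).aroots ℂ).toFinset.card = P.natDegree + 1 := by
  set Q := P.map (algebraMap ℚ ℂ) with hQ
  have hQd : Q.natDegree = P.natDegree := natDegree_map _
  have hQ1d : (Q - 1).natDegree = P.natDegree := by
    rw [← C_1, natDegree_sub_C, hQd]
  have hQ0 : Q ≠ 0 := fun h => by rw [h, natDegree_zero] at hQd; omega
  have hQ10 : Q - 1 ≠ 0 := fun h => by rw [h, natDegree_zero] at hQ1d; omega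
  have haroots : (P * (P - 1)).aroots ℂ = (Q * (Q - 1)).roots := by
    rw [aroots_def, Polynomial.map_mul, Polynomial.map_sub, Polynomial.map_one]
  rw [haroots, roots_mul (mul_ne_zero hQ0 hQ10), Multiset.toFinset_add,
    Finset.card_union_of_disjoint]
  swap
  · rw [Finset.disjoint_left]
    intro z h1 h2
    rw [Multiset.mem_toFinset, mem_roots hQ0, IsRoot.def] at h1
    rw [Multiset.mem_toFinset, mem_roots hQ10, IsRoot.def, eval_sub, eval_one, h1] at h2
    norm_num at h2
  have hd' : (derivative Q).natDegree = P.natDegree - 1 := by rw [natDegree_derivative, hQd]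
  have hd0 : derivative Q ≠ 0 := fun h => by
    have := derivative_eq_zero.1 h
    omega
  have hcard : (derivative Q).roots.card = P.natDegree - 1 := by
    rw [← hd', IsAlgClosed.card_roots_eq_natDegree]
  have part : ∀ {R : ℂ[X]}, R ≠ 0 → R.natDegree = P.natDegree → derivative R = derivative Q →
      ∑ z ∈ R.roots.toFinset, (derivative Q).roots.count z + R.roots.toFinset.card =
        P.natDegree := by
    intro R hR hRd hRQ
    rw [Finset.card_eq_sum_ones, ← Finset.sum_add_distrib]
    calc ∑ z ∈ R.roots.toFinset, ((derivative Q).roots.count z + 1)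
        = ∑ z ∈ R.roots.toFinset, R.roots.count z := Finset.sum_congr rfl fun z hz => by
          have hz' : R.IsRoot z := (mem_roots hR).1 (Multiset.mem_toFinset.1 hz)
          rw [count_roots, count_roots, ← hRQ, derivative_rootMultiplicity_of_root hz']
          have := (rootMultiplicity_pos hR).2 hz'
          omega
      _ = P.natDegree := by
          rw [Multiset.toFinset_sum_count_eq, IsAlgClosed.card_roots_eq_natDegree, hRd]
  have h0 := part hQ0 hQd rfl
  have h1 := part hQ10 hQ1d (by rw [derivative_sub, derivative_one, sub_zero])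
  have hsum : ∑ z ∈ Q.roots.toFinset, (derivative Q).roots.count z +
      ∑ z ∈ (Q - 1).roots.toFinset, (derivative Q).roots.count z = P.natDegree - 1 := by
    rw [← hcard, ← Finset.sum_union]
    · refine (Finset.sum_subset ?_ fun z _ hz => ?_).symm.trans (Multiset.toFinset_sum_count_eq _)
      · intro z hz
        rw [Multiset.mem_toFinset, mem_roots hd0, IsRoot.def, hQ, derivative_map,
          eval_map_algebraMap] at hz
        have hv : Q.eval z = 0 ∨ Q.eval z = 1 := by
          rw [hQ, eval_map_algebraMap]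
          simpa using hc z hz
        simp only [Finset.mem_union, Multiset.mem_toFinset, mem_roots hQ0, mem_roots hQ10,
          IsRoot.def, eval_sub, eval_one, sub_eq_zero]
        exact hv
      · exact Multiset.count_eq_zero.2 (by simpa only [Multiset.mem_toFinset] using hz)
    · rw [Finset.disjoint_left]
      intro z h1 h2
      rw [Multiset.mem_toFinset, mem_roots hQ0, IsRoot.def] at h1
      rw [Multiset.mem_toFinset, mem_roots hQ10, IsRoot.def, eval_sub, eval_one, h1] at h2
      norm_num at h2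
  omega

end FA.Belyi

end
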